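import Fermat.Agent.LT.T6.H288.IndexSpec

/-!
# Row LT, tower T6, sub-leaf T6.12g.5 `FixedModC` (helper82), OFF-MAIN

`fixedModC_of_resFixed82 : ResFixedC → FixedModC`  (frozen Props of
`Fermat/Agent/LT/T6/H288/IndexSpec.lean`, helper288 @01ab6bb4c, used VERBATIM).

Statement: `k'/k` unramified cyclic with generator `s`; if `x ∈ 𝒪'` and `s x ≡ x mod ϖ^r` then
`x ≡ i(a) mod ϖ^r` for some `a ∈ 𝒪`.

Proof: induction on `r` (for all `x`).  `r = 0`: `a = 0`.  Step: `ResFixedC` gives `a₀ ∈ 𝒪` with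
`v(x - i a₀) < 1`, i.e. `≤ exp (-1)`; put `x₁ = (x - i a₀) / i ϖ` (`ϖ` a uniformiser of `k`,
`v(i ϖ) = exp (-1)` because `e = 1`); then `x₁ ∈ 𝒪'` and `s x₁ - x₁ = (s x - x) / i ϖ` has
valuation `≤ exp (-r)`; the induction hypothesis gives `a₁`, and `a = a₀ + ϖ a₁` works:
`x - i a = i ϖ · (x₁ - i a₁)`.
-/

set_option autoImplicit false

noncomputable section

namespace Fermat.Agent.LT.T6.H82

open Fermat.Agent.LT.T6 Fermat.Agent.LT.T6.H288

/-- In `ℤᵐ⁰`: `x < 1 ↔ x ≤ exp (-1)`. -/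
theorem lt_one_iff_le_exp_neg_one82 (x : Γ₀) : x < 1 ↔ x ≤ WithZero.exp (-1 : ℤ) := by
  have h := WithZero.lt_mul_exp_iff_le (x := x) (y := WithZero.exp (-1 : ℤ)) WithZero.exp_ne_zero
  have h1 : WithZero.exp (-1 : ℤ) * WithZero.exp (1 : ℤ) = (1 : Γ₀) := by
    rw [← WithZero.exp_add]
    simp
  rwa [h1] at h

/-- `exp (-(r+1)) = exp (-1) * exp (-r)` in `ℤᵐ⁰`. -/
theorem exp_neg_succ82 (r : ℕ) :
    (WithZero.exp (-((r + 1 : ℕ) : ℤ)) : Γ₀) = WithZero.exp (-1 : ℤ) * WithZero.exp (-(r : ℤ)) := by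
  rw [← WithZero.exp_add]
  congr 1
  push_cast
  ring

/-- The induction step and base case, with `ResFixedC` at the given data as a hypothesis. -/
theorem fixedMod_aux82 {k k' : Type} [Field k] [Field k'] [Valued k Γ₀] [Valued k' Γ₀]
    {l : ℕ} {i : k →+* k'} {s : k' ≃+* k'}
    (hext : IsLocalExt k k' l 1 i s)
    (ϖ : k) (hϖ : Valued.v ϖ = WithZero.exp (-1 : ℤ))
    (hres : ∀ x : k', Valued.v x ≤ 1 → Valued.v (s x - x) < 1 →
      ∃ a : k, Valued.v a ≤ 1 ∧ Valued.v (x - i a) < 1) :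
    ∀ (r : ℕ) (x : k'), Valued.v x ≤ 1 → Valued.v (s x - x) ≤ WithZero.exp (-(r : ℤ)) →
      ∃ a : k, Valued.v a ≤ 1 ∧ Valued.v (x - i a) ≤ WithZero.exp (-(r : ℤ)) := by
  have hiϖ : Valued.v (i ϖ) = WithZero.exp (-1 : ℤ) := by
    rw [hext.val_i, pow_one, hϖ]
  have hiϖ0 : i ϖ ≠ 0 := by
    intro h0
    rw [h0, Valuation.map_zero] at hiϖ
    exact WithZero.exp_ne_zero hiϖ.symm
  have hval_i : ∀ a : k, Valued.v (i a) = Valued.v a := fun a => by
    rw [hext.val_i, pow_one]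
  intro r
  induction r with
  | zero =>
    intro x hx _
    refine ⟨0, by simp, ?_⟩
    simpa using hx
  | succ r ih =>
    intro x hx hsx
    -- the residue step
    have hlt : Valued.v (s x - x) < 1 := by
      rw [lt_one_iff_le_exp_neg_one82]
      refine le_trans hsx ?_
      rw [WithZero.exp_le_exp]
      push_cast
      omega
    obtain ⟨a₀, ha₀, hxa₀⟩ := hres x hx hlt
    rw [lt_one_iff_le_exp_neg_one82] at hxa₀
    -- divide by the uniformiser
    set x₁ : k' := (x - i a₀) / i ϖ with hx₁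
    have hx₁mul : i ϖ * x₁ = x - i a₀ := by
      rw [hx₁, mul_div_cancel₀ _ hiϖ0]
    have hvx₁ : Valued.v x₁ ≤ 1 := by
      have h := hxa₀
      rw [← hx₁mul, Valuation.map_mul, hiϖ] at h
      have hpos : (0 : Γ₀) < WithZero.exp (-1 : ℤ) := WithZero.exp_pos
      have h' : WithZero.exp (-1 : ℤ) * Valued.v x₁ ≤ WithZero.exp (-1 : ℤ) * 1 := by
        simpa using h
      exact le_of_mul_le_mul_left h' hpos
    have hsx₁ : i ϖ * (s x₁ - x₁) = s x - x := by
      have h1 : s (i ϖ * x₁) = i ϖ * s x₁ := by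
        rw [map_mul, hext.cyc.fix_i]
      have h2 : s (x - i a₀) = s x - i a₀ := by
        rw [map_sub, hext.cyc.fix_i]
      have h3 : i ϖ * s x₁ = s x - i a₀ := by
        rw [← h1, hx₁mul, h2]
      calc i ϖ * (s x₁ - x₁) = i ϖ * s x₁ - i ϖ * x₁ := by ring
        _ = (s x - i a₀) - (x - i a₀) := by rw [h3, hx₁mul]
        _ = s x - x := by ring
    have hvsx₁ : Valued.v (s x₁ - x₁) ≤ WithZero.exp (-(r : ℤ)) := by
      have h := hsx
      rw [← hsx₁, Valuation.map_mul, hiϖ, exp_neg_succ82] at h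
      have hpos : (0 : Γ₀) < WithZero.exp (-1 : ℤ) := WithZero.exp_pos
      exact le_of_mul_le_mul_left h hpos
    obtain ⟨a₁, ha₁, hxa₁⟩ := ih x₁ hvx₁ hvsx₁
    refine ⟨a₀ + ϖ * a₁, ?_, ?_⟩
    · refine le_trans (Valuation.map_add _ _ _) (max_le ha₀ ?_)
      rw [Valuation.map_mul, hϖ]
      calc WithZero.exp (-1 : ℤ) * Valued.v a₁ ≤ 1 * 1 := by
            refine mul_le_mul' ?_ ha₁
            rw [← WithZero.exp_zero (M := ℤ), WithZero.exp_le_exp]
            omega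
        _ = 1 := one_mul 1
    · have hkey : x - i (a₀ + ϖ * a₁) = i ϖ * (x₁ - i a₁) := by
        rw [map_add, map_mul, mul_sub, hx₁mul]
        ring
      rw [hkey, Valuation.map_mul, hiϖ, exp_neg_succ82]
      exact mul_le_mul' le_rfl hxa₁

/-- **T6.12g.5 `FixedModC` from `ResFixedC`.** -/
theorem fixedModC_of_resFixed82 (h : ResFixedC) : FixedModC := by
  intro k k' _ _ _ _ q l i s hk hk' hext r x hx hsx
  obtain ⟨ϖ, hϖ⟩ := hk.unif
  exact fixedMod_aux82 hext ϖ hϖ (fun y hy hsy => h k k' q l i s hk hk' hext y hy hsy) r x hx hsx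

end Fermat.Agent.LT.T6.H82

end
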