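import Mathlib
import Fermat.Agent.LT.T6.Spec
import Fermat.Agent.LT.T6.H944.OrbSumUniq

/-!
# Row LT, tower T6, sub-leaf T6.18g2-D1 `FibreC783`: the ABSTRACT fibration (helper82)

OFF-MAIN.  Pure group theory on the relation `IsOrbSumGen` of `T6/Spec.lean` (helper22).

`G ⊂ G'` (a homomorphism `ι`), `σ` an endomorphism of `G'` fixing `ι G`, `U'` a `σ`-stable
subgroup predicate of `G'`, `h ∈ G` whose twisted centraliser in `G'` is the image of the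
centraliser of `h` in `G`, `Y ⊂ G'` a finite set of representatives of DISTINCT double cosets
`ι(G) y U'` which contain every `x` with `φ(x⁻¹ ι(h) σ(x)) ≠ 0`.  Then

  `TO_{ι h}(φ) = ∑_{y ∈ Y} O^{Γ_y}_h(φ_y)`,   `Γ_y = {γ : y⁻¹ ι(γ) y ∈ U'}`, `φ_y(g) = φ(y⁻¹ ι(g) σ(y))`.

* `cIndex_fibre82`: the indices agree, `[T'^c_β : T'^c_β ∩ U'] = [T^c_g : T^c_g ∩ Γ_y]` for
  `β = y⁻¹ ι(g) σ(y)`, as soon as `T'^c_β = y⁻¹ ι(T^c_g) y`.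
* `fibre_abstract82`: the statement.
-/

set_option autoImplicit false

noncomputable section

namespace Fermat.Agent.LT.T6.H82

open Fermat.Agent.LT.T6

variable {G G' : Type} [Group G] [Group G']

/-- The index of `U'` in the compact part of the twisted centraliser of `β = y⁻¹ ι(g) σ(y)` is the
index of `Γ_y` in the compact part of the centraliser of `g`, if the former is the conjugate by
`y` of the image of the latter. -/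
theorem cIndex_fibre82 (ι : G →* G') (U' : G' → Prop)
    (hone : U' 1) (hmul : ∀ u v : G', U' u → U' v → U' (u * v))
    (hinv : ∀ u : G', U' u → U' u⁻¹)
    (C' : G' → G' → Prop) (C : G → G → Prop) (y β : G') (g : G)
    (hchar : ∀ t : G', C' β t ↔ ∃ t₁ : G, C g t₁ ∧ t = y⁻¹ * ι t₁ * y) :
    cIndex U' C' β = cIndex (fun g₀ : G => U' (y⁻¹ * ι g₀ * y)) C g := by
  unfold cIndex
  have hΓone : U' (y⁻¹ * ι (1 : G) * y) := by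
    have e : y⁻¹ * ι (1 : G) * y = 1 := by rw [map_one]; group
    rw [e]; exact hone
  have hΓmul : ∀ a b : G, U' (y⁻¹ * ι a * y) → U' (y⁻¹ * ι b * y) →
      U' (y⁻¹ * ι (a * b) * y) := by
    intro a b ha hb
    have e : y⁻¹ * ι (a * b) * y = (y⁻¹ * ι a * y) * (y⁻¹ * ι b * y) := by
      rw [map_mul]; group
    rw [e]; exact hmul _ _ ha hb
  have hΓinv : ∀ a : G, U' (y⁻¹ * ι a * y) → U' (y⁻¹ * ι a⁻¹ * y) := by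
    intro a ha
    have e : y⁻¹ * ι a⁻¹ * y = (y⁻¹ * ι a * y)⁻¹ := by
      rw [map_inv]; group
    rw [e]; exact hinv _ ha
  -- the map on cosets
  set F : Set G → Set G' :=
    fun c => {x : G' | ∃ g₀ ∈ c, ∃ u : G', U' u ∧ x = y⁻¹ * ι g₀ * y * u} with hF
  have hFcoset : ∀ t₁ : G,
      F {g₀ : G | ∃ γ : G, U' (y⁻¹ * ι γ * y) ∧ g₀ = t₁ * γ}
        = {x : G' | ∃ u : G', U' u ∧ x = (y⁻¹ * ι t₁ * y) * u} := by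
    intro t₁
    ext x
    constructor
    · rintro ⟨g₀, ⟨γ, hγ, rfl⟩, u, hu, rfl⟩
      refine ⟨(y⁻¹ * ι γ * y) * u, hmul _ _ hγ hu, ?_⟩
      rw [map_mul]; group
    · rintro ⟨u, hu, rfl⟩
      exact ⟨t₁, ⟨1, hΓone, (mul_one _).symm⟩, u, hu, rfl⟩
  have himg : {c : Set G' | ∃ t : G', C' β t ∧ c = {x : G' | ∃ u : G', U' u ∧ x = t * u}}
      = F '' {c : Set G | ∃ t₁ : G, C g t₁ ∧
          c = {g₀ : G | ∃ γ : G, U' (y⁻¹ * ι γ * y) ∧ g₀ = t₁ * γ}} := by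
    ext c
    constructor
    · rintro ⟨t, ht, rfl⟩
      obtain ⟨t₁, ht₁, rfl⟩ := (hchar t).1 ht
      exact ⟨_, ⟨t₁, ht₁, rfl⟩, hFcoset t₁⟩
    · rintro ⟨c', ⟨t₁, ht₁, rfl⟩, rfl⟩
      exact ⟨y⁻¹ * ι t₁ * y, (hchar _).2 ⟨t₁, ht₁, rfl⟩, hFcoset t₁⟩
  rw [himg]
  refine Set.InjOn.ncard_image ?_
  rintro c₁ ⟨t₁, -, rfl⟩ c₂ ⟨t₂, -, rfl⟩ heq
  rw [hFcoset, hFcoset] at heq
  -- `y⁻¹ ι(t₁) y ∈ y⁻¹ ι(t₂) y U'`
  have hmem : (y⁻¹ * ι t₁ * y) ∈ {x : G' | ∃ u : G', U' u ∧ x = (y⁻¹ * ι t₂ * y) * u} := by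
    rw [← heq]
    exact ⟨1, hone, (mul_one _).symm⟩
  obtain ⟨u, hu, e⟩ := hmem
  have hγ : U' (y⁻¹ * ι (t₂⁻¹ * t₁) * y) := by
    have e' : y⁻¹ * ι (t₂⁻¹ * t₁) * y = u := by
      have : y⁻¹ * ι (t₂⁻¹ * t₁) * y = (y⁻¹ * ι t₂ * y)⁻¹ * (y⁻¹ * ι t₁ * y) := by
        rw [map_mul, map_inv]; group
      rw [this, e]; group
    rw [e']; exact hu
  have hγ' : U' (y⁻¹ * ι (t₁⁻¹ * t₂) * y) := by
    have := hΓinv _ hγ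
    rwa [mul_inv_rev, inv_inv] at this
  ext g₀
  constructor
  · rintro ⟨γ, hγ₀, rfl⟩
    exact ⟨t₂⁻¹ * t₁ * γ, hΓmul _ _ hγ hγ₀, by group⟩
  · rintro ⟨γ, hγ₀, rfl⟩
    exact ⟨t₁⁻¹ * t₂ * γ, hΓmul _ _ hγ' hγ₀, by group⟩

/-- **The abstract fibration of a twisted orbit sum over the double cosets `ι(G) y U'`.** -/
theorem fibre_abstract82 (ι : G →* G') (σ : G' →* G') (s₀ : G →* G)
    (hs₀ : ∀ g : G, s₀ g = g) (hσι : ∀ g : G, σ (ι g) = ι g)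
    (U' : G' → Prop) (hmul : ∀ u v : G', U' u → U' v → U' (u * v))
    (hinv : ∀ u : G', U' u → U' u⁻¹) (hσU : ∀ u : G', U' u → U' (σ u))
    (φ : G' → ℂ) (hφ : IsBiInv U' φ)
    (C' : G' → G' → Prop) (C : G → G → Prop)
    (hC' : ∀ y u t : G', U' u → (C' (u⁻¹ * y * σ u) t ↔ C' y (u * t * u⁻¹)))
    (h : G)
    (hcent : ∀ τ : G', τ⁻¹ * ι h * σ τ = ι h → ∃ t : G, t * h = h * t ∧ τ = ι t)
    (hidx : ∀ (y : G') (g : G), (∃ x : G, g = x⁻¹ * h * x) →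
      cIndex U' C' (y⁻¹ * ι g * σ y) = cIndex (fun g₀ : G => U' (y⁻¹ * ι g₀ * y)) C g)
    (Y : Finset G')
    (hY : ∀ y ∈ Y, ∀ y' ∈ Y, (∃ (g : G) (u : G'), U' u ∧ y' = ι g * y * u) → y = y')
    (hcov : ∀ x : G', φ (x⁻¹ * ι h * σ x) ≠ 0 →
      ∃ y ∈ Y, ∃ (g : G) (u : G'), U' u ∧ x = ι g * y * u)
    (c : ℂ) (cs : G' → ℂ)
    (hc : IsOrbSumGen σ U' C' φ (ι h) c)
    (hcs : ∀ y ∈ Y, IsOrbSumGen s₀ (fun g₀ : G => U' (y⁻¹ * ι g₀ * y)) C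
      (fun g : G => φ (y⁻¹ * ι g * σ y)) h (cs y)) :
    c = ∑ y ∈ Y, cs y := by
  classical
  obtain ⟨R, hR1, hR2, hR3, rfl⟩ := hc
  -- the systems of representatives `R_y`
  have hex : ∀ y : G', ∃ Ry : Finset G, y ∈ Y →
      ((∀ g ∈ Ry, ∃ x : G, g = x⁻¹ * h * x) ∧
        (∀ g ∈ Ry, ∀ g' ∈ Ry,
          (∃ γ : G, U' (y⁻¹ * ι γ * y) ∧ g' = γ⁻¹ * g * γ) → g = g') ∧
        (∀ g : G, (∃ x : G, g = x⁻¹ * h * x) → φ (y⁻¹ * ι g * σ y) ≠ 0 →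
          ∃ g' ∈ Ry, ∃ γ : G, U' (y⁻¹ * ι γ * y) ∧ g = γ⁻¹ * g' * γ) ∧
        cs y = ∑ g ∈ Ry, φ (y⁻¹ * ι g * σ y) *
          (cIndex (fun g₀ : G => U' (y⁻¹ * ι g₀ * y)) C g : ℂ)) := by
    intro y
    by_cases hy : y ∈ Y
    · obtain ⟨Ry, h1, h2, h3, h4⟩ := hcs y hy
      refine ⟨Ry, fun _ => ⟨?_, ?_, ?_, h4⟩⟩
      · intro g hg
        obtain ⟨x, hx⟩ := h1 g hg
        exact ⟨x, by rw [hx, hs₀]⟩
      · intro g hg g' hg' ⟨γ, hγ, e⟩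
        exact h2 g hg g' hg' ⟨γ, hγ, by rw [e, hs₀]⟩
      · intro g ⟨x, hx⟩ hne
        obtain ⟨g', hg', γ, hγ, e⟩ := h3 g ⟨x, by rw [hx, hs₀]⟩ hne
        exact ⟨g', hg', γ, hγ, by rw [e, hs₀]⟩
    · exact ⟨∅, fun h' => absurd h' hy⟩
  choose Rf hRf using hex
  -- the right hand side as ONE sum
  have hsum : ∑ y ∈ Y, cs y
      = ∑ p ∈ Y.sigma Rf, φ (p.1⁻¹ * ι p.2 * σ p.1) *
          (cIndex U' C' (p.1⁻¹ * ι p.2 * σ p.1) : ℂ) := by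
    rw [Finset.sum_sigma]
    refine Finset.sum_congr rfl (fun y hy => ?_)
    rw [(hRf y hy).2.2.2]
    refine Finset.sum_congr rfl (fun g hg => ?_)
    rw [hidx y g ((hRf y hy).1 g hg)]
  rw [hsum]
  symm
  -- the term is invariant under `σ`-conjugation by `U'`
  have hterm : ∀ (y u : G'), U' u →
      φ (u⁻¹ * y * σ u) * (cIndex U' C' (u⁻¹ * y * σ u) : ℂ) = φ y * (cIndex U' C' y : ℂ) := by
    intro y u hu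
    rw [H944.cIndex_conj944 σ U' C' hmul hinv hC' y u hu, hφ u⁻¹ (σ u) y (hinv u hu) (hσU u hu)]
  have hφne : ∀ y : G', φ y * (cIndex U' C' y : ℂ) ≠ 0 → φ y ≠ 0 := fun y hy h0 =>
    hy (by rw [h0, zero_mul])
  -- `β(y, g)` lies in the `σ`-class of `ι h`
  have hβ : ∀ (y : G') (x : G),
      y⁻¹ * ι (x⁻¹ * h * x) * σ y = (ι x * y)⁻¹ * ι h * σ (ι x * y) := by
    intro y x
    rw [map_mul, map_mul, map_mul, map_inv, hσι]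
    group
  -- the choice of the representative in `R`
  have hchoice : ∀ p ∈ Y.sigma Rf,
      φ (p.1⁻¹ * ι p.2 * σ p.1) * (cIndex U' C' (p.1⁻¹ * ι p.2 * σ p.1) : ℂ) ≠ 0 →
      ∃ r ∈ R, ∃ u : G', U' u ∧ p.1⁻¹ * ι p.2 * σ p.1 = u⁻¹ * r * σ u := by
    intro p hp hne
    rw [Finset.mem_sigma] at hp
    obtain ⟨x, hx⟩ := (hRf p.1 hp.1).1 p.2 hp.2
    refine hR3 _ ⟨ι x * p.1, ?_⟩ (hφne _ hne)
    rw [hx, hβ]
  refine Finset.sum_bij_ne_zero (fun p hp hne => Classical.choose (hchoice p hp hne))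
    (fun p hp hne => (Classical.choose_spec (hchoice p hp hne)).1) ?_ ?_ ?_
  · -- injectivity
    rintro ⟨y₁, g₁⟩ hp₁ hne₁ ⟨y₂, g₂⟩ hp₂ hne₂ heq
    have hspec₁ := Classical.choose_spec (hchoice ⟨y₁, g₁⟩ hp₁ hne₁)
    have hspec₂ := Classical.choose_spec (hchoice ⟨y₂, g₂⟩ hp₂ hne₂)
    rw [← heq] at hspec₂
    generalize Classical.choose (hchoice ⟨y₁, g₁⟩ hp₁ hne₁) = r at hspec₁ hspec₂
    obtain ⟨-, u₁, hu₁, e₁⟩ := hspec₁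
    obtain ⟨-, u₂, hu₂, e₂⟩ := hspec₂
    simp only at e₁ e₂
    rw [Finset.mem_sigma] at hp₁ hp₂
    simp only at hp₁ hp₂
    obtain ⟨x₁, hx₁⟩ := (hRf y₁ hp₁.1).1 g₁ hp₁.2
    obtain ⟨x₂, hx₂⟩ := (hRf y₂ hp₂.1).1 g₂ hp₂.2
    -- `u = u₁⁻¹ u₂` conjugates `β₁` to `β₂`
    have hu : U' (u₁⁻¹ * u₂) := hmul _ _ (hinv _ hu₁) hu₂
    have e12 : y₂⁻¹ * ι g₂ * σ y₂ = (u₁⁻¹ * u₂)⁻¹ * (y₁⁻¹ * ι g₁ * σ y₁) * σ (u₁⁻¹ * u₂) := by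
      rw [e₂, e₁, map_mul, map_inv]
      group
    -- the element `τ` of the twisted centraliser
    have hτ : ((ι x₁ * y₁ * (u₁⁻¹ * u₂)) * (ι x₂ * y₂)⁻¹)⁻¹ * ι h *
        σ ((ι x₁ * y₁ * (u₁⁻¹ * u₂)) * (ι x₂ * y₂)⁻¹) = ι h := by
      have e1 : (ι x₂ * y₂)⁻¹ * ι h * σ (ι x₂ * y₂)
          = (ι x₁ * y₁ * (u₁⁻¹ * u₂))⁻¹ * ι h * σ (ι x₁ * y₁ * (u₁⁻¹ * u₂)) := by
        rw [← hβ, ← hx₂, e12, hx₁, hβ]
        rw [map_mul (f := σ) (ι x₁ * y₁) (u₁⁻¹ * u₂)]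
        group
      have e2 : ((ι x₁ * y₁ * (u₁⁻¹ * u₂)) * (ι x₂ * y₂)⁻¹)⁻¹ * ι h *
          σ ((ι x₁ * y₁ * (u₁⁻¹ * u₂)) * (ι x₂ * y₂)⁻¹)
          = (ι x₂ * y₂) * ((ι x₁ * y₁ * (u₁⁻¹ * u₂))⁻¹ * ι h * σ (ι x₁ * y₁ * (u₁⁻¹ * u₂)))
            * (σ (ι x₂ * y₂))⁻¹ := by
        rw [map_mul (f := σ) (ι x₁ * y₁ * (u₁⁻¹ * u₂)) (ι x₂ * y₂)⁻¹, map_inv]
        group
      rw [e2, ← e1]
      group
    obtain ⟨t, htc, ht⟩ := hcent _ hτ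
    -- `y₂ ∈ ι(G) y₁ U'`
    have hy2 : y₂ = ι (x₂⁻¹ * t⁻¹ * x₁) * y₁ * (u₁⁻¹ * u₂) := by
      have : ι x₁ * y₁ * (u₁⁻¹ * u₂) = ι t * (ι x₂ * y₂) := by
        rw [← ht]; group
      rw [map_mul, map_mul, map_inv, map_inv]
      calc y₂ = (ι x₂)⁻¹ * (ι t)⁻¹ * (ι t * (ι x₂ * y₂)) := by group
        _ = (ι x₂)⁻¹ * (ι t)⁻¹ * (ι x₁ * y₁ * (u₁⁻¹ * u₂)) := by rw [this]
        _ = (ι x₂)⁻¹ * (ι t)⁻¹ * ι x₁ * y₁ * (u₁⁻¹ * u₂) := by group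
    have hyy : y₁ = y₂ := hY y₁ hp₁.1 y₂ hp₂.1 ⟨_, _, hu, hy2⟩
    subst hyy
    -- `γ = x₁⁻¹ t x₂ ∈ Γ_y` conjugates `g₁` to `g₂`
    have hγ : y₁⁻¹ * ι (x₁⁻¹ * t * x₂) * y₁ = u₁⁻¹ * u₂ := by
      have : ι x₁ * y₁ * (u₁⁻¹ * u₂) = ι t * (ι x₂ * y₁) := by
        rw [← ht]; group
      rw [map_mul, map_mul, map_inv]
      calc y₁⁻¹ * ((ι x₁)⁻¹ * ι t * ι x₂) * y₁
          = y₁⁻¹ * (ι x₁)⁻¹ * (ι t * (ι x₂ * y₁)) := by group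
        _ = y₁⁻¹ * (ι x₁)⁻¹ * (ι x₁ * y₁ * (u₁⁻¹ * u₂)) := by rw [this]
        _ = u₁⁻¹ * u₂ := by group
    have hgg : g₁ = g₂ := by
      refine (hRf y₁ hp₁.1).2.1 g₁ hp₁.2 g₂ hp₂.2 ⟨x₁⁻¹ * t * x₂, ?_, ?_⟩
      · rw [hγ]; exact hu
      · rw [hx₂, hx₁]
        have ht' : t⁻¹ * h * t = h := by rw [mul_assoc, ← htc]; group
        calc x₂⁻¹ * h * x₂ = x₂⁻¹ * (t⁻¹ * h * t) * x₂ := by rw [ht']
          _ = (x₁⁻¹ * t * x₂)⁻¹ * (x₁⁻¹ * h * x₁) * (x₁⁻¹ * t * x₂) := by group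
    rw [hgg]
  · -- surjectivity
    intro r hr hne
    obtain ⟨x, hx⟩ := hR1 r hr
    have hφr : φ r ≠ 0 := hφne r hne
    obtain ⟨y, hy, g₀, u, hu, hxe⟩ := hcov x (by rw [← hx]; exact hφr)
    -- `r = u⁻¹ β(y, g₁) σ(u)` with `g₁ = g₀⁻¹ h g₀`
    have hr1 : r = u⁻¹ * (y⁻¹ * ι (g₀⁻¹ * h * g₀) * σ y) * σ u := by
      rw [hx, hxe, hβ]
      rw [map_mul (f := σ) (ι g₀ * y) u]
      group
    have hφ1 : φ (y⁻¹ * ι (g₀⁻¹ * h * g₀) * σ y) ≠ 0 := by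
      have := hφ u⁻¹ (σ u) (y⁻¹ * ι (g₀⁻¹ * h * g₀) * σ y) (hinv u hu) (hσU u hu)
      rw [← this, ← hr1]
      exact hφr
    obtain ⟨g, hg, γ, hγ, e⟩ := (hRf y hy).2.2.1 _ ⟨g₀, rfl⟩ hφ1
    -- `β(y, g₁) = w⁻¹ β(y, g) σ(w)` with `w = y⁻¹ ι(γ) y ∈ U'`
    have hr2 : r = ((y⁻¹ * ι γ * y) * u)⁻¹ * (y⁻¹ * ι g * σ y) * σ ((y⁻¹ * ι γ * y) * u) := by
      rw [hr1, e]
      rw [map_mul (f := σ) (y⁻¹ * ι γ * y) u, map_mul (f := σ) (y⁻¹ * ι γ) y,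
        map_mul (f := σ) y⁻¹ (ι γ), map_inv, hσι, map_mul, map_mul, map_inv]
      group
    have hwu : U' ((y⁻¹ * ι γ * y) * u) := hmul _ _ hγ hu
    have hmem : (⟨y, g⟩ : Σ _ : G', G) ∈ Y.sigma Rf := Finset.mem_sigma.mpr ⟨hy, hg⟩
    have hnep : φ (y⁻¹ * ι g * σ y) * (cIndex U' C' (y⁻¹ * ι g * σ y) : ℂ) ≠ 0 := by
      rw [← hterm _ _ hwu, ← hr2]
      exact hne
    refine ⟨⟨y, g⟩, hmem, hnep, ?_⟩
    have hspec := Classical.choose_spec (hchoice ⟨y, g⟩ hmem hnep)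
    generalize Classical.choose (hchoice ⟨y, g⟩ hmem hnep) = r' at hspec ⊢
    obtain ⟨hr', w, hw, e'⟩ := hspec
    simp only at e'
    refine hR2 r' hr' r hr ⟨w * ((y⁻¹ * ι γ * y) * u), hmul _ _ hw hwu, ?_⟩
    rw [hr2, e', map_mul (f := σ) w ((y⁻¹ * ι γ * y) * u)]
    group
  · -- the terms agree
    intro p hp hne
    have hspec := Classical.choose_spec (hchoice p hp hne)
    generalize Classical.choose (hchoice p hp hne) = r at hspec ⊢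
    obtain ⟨-, u, hu, e⟩ := hspec
    rw [e]
    exact hterm _ u hu

end Fermat.Agent.LT.T6.H82

end
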