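import Mathlib
import Fermat.Agent.LT.T6.Spec
import Fermat.Agent.LT.T6.H166.TwCent
import Fermat.Agent.LT.T6.H944.OrbSumUniq
import Fermat.Agent.LT.T6.H783.DescSpec
import Fermat.Agent.LT.T6.H82.FibreAbs

/-!
# Row LT, tower T6, sub-leaf T6.18g2-D1 `FibreC783` (helper82)

OFF-MAIN.  `fibreC82 : H783.FibreC783`, VERBATIM against `LT/T6/H783/DescSpec.lean`
(helper783@4831eb18d, sha256 efb33450), UNCONDITIONAL:

  `TO_h(φ) = ∑_{y ∈ Y} O^{Γ_y}_h(φ_y)`.

Proof: the abstract fibration `fibre_abstract82` (`FibreAbs.lean`) for `G = GL₂(k)`,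
`G' = GL₂(k')`, `ι = GL.map i`, `σ = glAut s`, `U' = U'(n)`, with

* the twisted centraliser of `ι(g)` in `G'` is the image of the centraliser of `g` in `G` when
  `g ^ l` is regular: `twCentC166` (helper166, T6.06) for `N(ι g) = ι(g ^ l)`, and the centraliser
  of the non-scalar `g ^ l` is commutative (`gl_comm_of_comm166`);
* the compact parts correspond (`val_i`: `v(i x) = v(x) ^ e`, `e > 0`);
* `U'(n)` is a `σ`-stable subgroup (`inU_mul944`, `inU_inv944`, `inU_glAut944` of helper944, T6.09).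
-/

set_option autoImplicit false

open scoped Matrix

noncomputable section

namespace Fermat.Agent.LT.T6.H82

open Fermat.Agent.LT.T6

section Local

/-- `1 ∈ U(n)`. -/
theorem inU_one82 {k : Type} [Field k] [Valued k Γ₀] (n : ℕ) : InU n (1 : GL (Fin 2) k) := by
  intro a b
  simp

/-- `glAut` of the identity automorphism is the identity. -/
theorem glAut_refl82 {k : Type} [Field k] (g : GL (Fin 2) k) :
    glAut (RingEquiv.refl k) g = g := by
  apply Matrix.GeneralLinearGroup.ext
  intro a b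
  rw [H166.glAut_apply166]
  rfl

end Local

section Algebra

variable {k k' : Type} [Field k] [Field k']

/-- The twisted norm of an element of `GL₂(k)` is its `l`-th power. -/
theorem twNorm_map82 (i : k →+* k') (s : k' ≃+* k') (hfix : ∀ x : k, s (i x) = i x)
    (g : GL (Fin 2) k) (l : ℕ) :
    twNorm s l (Matrix.GeneralLinearGroup.map i g) = Matrix.GeneralLinearGroup.map i (g ^ l) := by
  induction l with
  | zero => rw [pow_zero, map_one]; rfl
  | succ m ih =>
    have e : twNorm s (m + 1) (Matrix.GeneralLinearGroup.map i g)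
        = Matrix.GeneralLinearGroup.map i g
          * glAut s (twNorm s m (Matrix.GeneralLinearGroup.map i g)) := rfl
    rw [e, ih, H166.glAut_map166 i s hfix, ← map_mul, ← pow_succ']

/-- The discriminant is invariant under conjugation. -/
theorem isReg_conj82 (x m : GL (Fin 2) k) (hm : IsReg m) : IsReg (x⁻¹ * m * x) := by
  have htr : ((x⁻¹ * m * x : GL (Fin 2) k) : Matrix (Fin 2) (Fin 2) k).trace
      = (m : Matrix (Fin 2) (Fin 2) k).trace := by
    rw [Units.val_mul, Matrix.trace_mul_comm, ← Units.val_mul]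
    congr 2
    group
  have hdet : ((x⁻¹ * m * x : GL (Fin 2) k) : Matrix (Fin 2) (Fin 2) k).det
      = (m : Matrix (Fin 2) (Fin 2) k).det := by
    rw [Units.val_mul, Matrix.det_mul_comm, ← Units.val_mul]
    congr 2
    group
  unfold IsReg disc at hm ⊢
  rw [htr, hdet]
  exact hm

/-- Powers of a conjugate. -/
theorem conj_pow82 {Γ : Type} [Group Γ] (x h : Γ) (l : ℕ) :
    (x⁻¹ * h * x) ^ l = x⁻¹ * h ^ l * x := by
  induction l with
  | zero => simp
  | succ m ih => rw [pow_succ, ih, pow_succ]; group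

/-- The `l`-th power of a conjugate of `h` is regular if `h ^ l` is. -/
theorem isReg_conj_pow82 (x h : GL (Fin 2) k) (l : ℕ) (hreg : IsReg (h ^ l)) :
    IsReg ((x⁻¹ * h * x) ^ l) := by
  rw [conj_pow82]
  exact isReg_conj82 x _ hreg

/-- The trace of the image of `t` in `GL₂(k')`. -/
theorem trace_map82 (i : k →+* k') (t : GL (Fin 2) k) :
    (Matrix.GeneralLinearGroup.map i t : Matrix (Fin 2) (Fin 2) k').trace
      = i (t : Matrix (Fin 2) (Fin 2) k).trace := by
  rw [Matrix.trace_fin_two, Matrix.trace_fin_two, Matrix.GeneralLinearGroup.map_apply,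
    Matrix.GeneralLinearGroup.map_apply, map_add]

/-- The determinant of the image of `t` in `GL₂(k')`. -/
theorem det_map82 (i : k →+* k') (t : GL (Fin 2) k) :
    (Matrix.GeneralLinearGroup.map i t : Matrix (Fin 2) (Fin 2) k').det
      = i (t : Matrix (Fin 2) (Fin 2) k).det := by
  rw [Matrix.det_fin_two, Matrix.det_fin_two, Matrix.GeneralLinearGroup.map_apply,
    Matrix.GeneralLinearGroup.map_apply, Matrix.GeneralLinearGroup.map_apply,
    Matrix.GeneralLinearGroup.map_apply, map_sub, map_mul, map_mul]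

/-- The twisted centraliser of `ι(g)` is the image of the centraliser of `g`, for `g ^ l`
regular. -/
theorem twCent_map82 (l : ℕ) (i : k →+* k') (s : k' ≃+* k') (hcyc : IsCyclicData k k' l i s)
    (g : GL (Fin 2) k) (hreg : IsReg (g ^ l)) (τ : GL (Fin 2) k')
    (hτ : τ⁻¹ * Matrix.GeneralLinearGroup.map i g * glAut s τ
      = Matrix.GeneralLinearGroup.map i g) :
    ∃ t : GL (Fin 2) k, t * g = g * t ∧ τ = Matrix.GeneralLinearGroup.map i t := by
  have h1 := (H166.twCentC166 k k' l i s hcyc (Matrix.GeneralLinearGroup.map i g) (g ^ l) hreg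
    (twNorm_map82 i s hcyc.fix_i g l) τ).1 hτ
  obtain ⟨t, htc, ht⟩ := h1
  refine ⟨t, ?_, ht⟩
  have hns : ((g ^ l : GL (Fin 2) k) : Matrix (Fin 2) (Fin 2) k) 0 1 ≠ 0 ∨
      ((g ^ l : GL (Fin 2) k) : Matrix (Fin 2) (Fin 2) k) 1 0 ≠ 0 ∨
      ((g ^ l : GL (Fin 2) k) : Matrix (Fin 2) (Fin 2) k) 0 0
        - ((g ^ l : GL (Fin 2) k) : Matrix (Fin 2) (Fin 2) k) 1 1 ≠ 0 :=
    H166.nonscalar_of_disc166 _ hreg.ne_zero
  exact H166.gl_comm_of_comm166 (g ^ l) t g hns htc (pow_mul_comm' g l).symm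

end Algebra

section Compact

variable {k k' : Type} [Field k] [Field k'] [Valued k Γ₀] [Valued k' Γ₀]

/-- `v(i x) ≤ 1 ↔ v(x) ≤ 1`. -/
theorem val_le_one_iff82 {e : ℕ} (he : 0 < e) (i : k →+* k')
    (hv : ∀ x : k, Valued.v (i x) = Valued.v x ^ e) (x : k) :
    Valued.v (i x) ≤ 1 ↔ Valued.v x ≤ 1 := by
  rw [hv]
  exact pow_le_one_iff he.ne'

/-- `v(i x) = 1 ↔ v(x) = 1`. -/
theorem val_eq_one_iff82 {e : ℕ} (he : 0 < e) (i : k →+* k')
    (hv : ∀ x : k, Valued.v (i x) = Valued.v x ^ e) (x : k) :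
    Valued.v (i x) = 1 ↔ Valued.v x = 1 := by
  rw [hv]
  exact pow_eq_one_iff_of_nonneg zero_le he.ne'

/-- The compact part of the twisted centraliser of `β = y⁻¹ ι(g) σ(y)` is the conjugate by `y` of
the image of the compact part of the centraliser of `g`, for `g ^ l` regular. -/
theorem inTwCentC_fibre82 (l e : ℕ) (i : k →+* k') (s : k' ≃+* k')
    (hext : IsLocalExt k k' l e i s) (g : GL (Fin 2) k) (hreg : IsReg (g ^ l))
    (y t : GL (Fin 2) k') :
    InTwCentC s (y⁻¹ * Matrix.GeneralLinearGroup.map i g * glAut s y) t ↔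
      ∃ t₁ : GL (Fin 2) k, InTwCentC (RingEquiv.refl k) g t₁ ∧
        t = y⁻¹ * Matrix.GeneralLinearGroup.map i t₁ * y := by
  rw [H944.inTwCentC_conj944 s (Matrix.GeneralLinearGroup.map i g) y t]
  constructor
  · rintro ⟨hc, htr, hdet⟩
    obtain ⟨t₁, hcomm, ht₁⟩ := twCent_map82 l i s hext.cyc g hreg _ hc
    refine ⟨t₁, ⟨?_, ?_, ?_⟩, ?_⟩
    · show t₁⁻¹ * g * glAut (RingEquiv.refl k) t₁ = g
      rw [glAut_refl82, mul_assoc, ← hcomm]
      group
    · rw [ht₁, trace_map82] at htr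
      exact (val_le_one_iff82 hext.e_pos i hext.val_i _).1 htr
    · rw [ht₁, det_map82] at hdet
      exact (val_eq_one_iff82 hext.e_pos i hext.val_i _).1 hdet
    · rw [← ht₁]
      group
  · rintro ⟨t₁, ⟨hc, htr, hdet⟩, rfl⟩
    have e1 : y * (y⁻¹ * Matrix.GeneralLinearGroup.map i t₁ * y) * y⁻¹
        = Matrix.GeneralLinearGroup.map i t₁ := by group
    rw [e1]
    refine ⟨?_, ?_, ?_⟩
    · show (Matrix.GeneralLinearGroup.map i t₁)⁻¹ * Matrix.GeneralLinearGroup.map i g
        * glAut s (Matrix.GeneralLinearGroup.map i t₁) = Matrix.GeneralLinearGroup.map i g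
      have hc' : t₁⁻¹ * g * t₁ = g := by
        have := hc
        unfold InTwCent at this
        rwa [glAut_refl82] at this
      rw [H166.glAut_map166 i s hext.cyc.fix_i, ← map_inv, ← map_mul, ← map_mul, hc']
    · rw [trace_map82]
      exact (val_le_one_iff82 hext.e_pos i hext.val_i _).2 htr
    · rw [det_map82]
      exact (val_eq_one_iff82 hext.e_pos i hext.val_i _).2 hdet

end Compact

/-- **T6.18g2-D1 `FibreC783`** (VERBATIM, unconditional): the fibration of the twisted class over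
`G \ G' / U'`, `TO_h(φ) = ∑_{y ∈ Y} O^{Γ_y}_h(φ_y)`. -/
theorem fibreC82 : H783.FibreC783 := by
  intro k k' _ _ _ _ q l e i s n φ hB Y hY h hreg hcov c cs hc hcs
  have hfix := hB.ext.cyc.fix_i
  refine fibre_abstract82 (Matrix.GeneralLinearGroup.map i) (glAut s)
    (glAut (RingEquiv.refl k)) glAut_refl82 (H166.glAut_map166 i s hfix) (InU n)
    (H944.inU_mul944 n) (H944.inU_inv944 n) (H944.inU_glAut944 s hB.ext.val_s n) φ hB.inv
    (InTwCentC s) (InTwCentC (RingEquiv.refl k))
    (fun y u t _ => H944.inTwCentC_conj944 s y u t) h ?_ ?_ Y hY hcov c cs hc hcs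
  · intro τ hτ
    exact twCent_map82 l i s hB.ext.cyc h hreg τ hτ
  · rintro y g ⟨x, rfl⟩
    exact cIndex_fibre82 (Matrix.GeneralLinearGroup.map i) (InU n) (inU_one82 n)
      (H944.inU_mul944 n) (H944.inU_inv944 n) (InTwCentC s) (InTwCentC (RingEquiv.refl k)) y _ _
      (inTwCentC_fibre82 l e i s hB.ext _ (isReg_conj_pow82 x h l hreg) y)

end Fermat.Agent.LT.T6.H82

end
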